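/-
S33lib / TLevel / Core  (helper5), block Alg-1 of project LSp (S33).

**`T`-level ordinarity from character-level inertia-invariant functionals** (pure algebra).

`ρ` an adic Galois representation of rank `2` over a local ring `T`, `P` a place of `ℚ̄`,
`I = I_P ⊲ D = D_P`.  Put `L := Σ_{σ ∈ I} (ρ σ − 1) V`.  Then `L` is `D`-stable and contains every
`(ρ σ − 1) v`, `σ ∈ I`, for free.  If moreover

* some `σ₀ ∈ I` has `det ρ(σ₀) ≢ 1` modulo the maximal ideal (so `ρ̄(σ₀) ≠ 1`), and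
* every `t ≠ 0` of `T` is detected by a ring homomorphism `χ : T → O` into a domain carrying a
  NONZERO `χ`-semilinear functional `f : V → O` with `f ∘ ρ σ = f` for all `σ ∈ I` (e.g. jointly
  injective `ψ k : T → O k`, each with such a functional),

then `L = T ∙ b 0` for a basis `b` of `V`, i.e. `L` is the line required by
`GaloisRepAdic.IsOrdinaryAt`.  No Nakayama on quotients, no tensor products: pick `ℓ₀ ∈ L` with a unit
coordinate, complete it to a basis `(ℓ₀, w)` by a vector `w` of the original basis, and show that the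
`w`-coordinate of every element of `L` is killed by every such `χ`.
-/
import Mathlib
import Fermat.Prelude.Def_GaloisRep_LocalConditions

set_option autoImplicit false
set_option linter.unusedSectionVars false

noncomputable section

namespace Fermat.Agent.S33lib.TLevel

open IsLocalRing

/-- `ℚ̄` -/
local notation "Qb" => AlgebraicClosure ℚ
/-- `G_ℚ` -/
local notation "GQ" => (AlgebraicClosure ℚ ≃ₐ[ℚ] AlgebraicClosure ℚ)

/-- The inertia group is normalised by the decomposition group. -/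
theorem conj_mem_inertiaSubgroupIn_of_mem_decomp (P : ValuationSubring Qb) {σ τ : GQ}
    (hσ : σ ∈ P.decompositionSubgroup ℚ) (hτ : τ ∈ P.inertiaSubgroupIn ℚ) :
    σ * τ * σ⁻¹ ∈ P.inertiaSubgroupIn ℚ := by
  obtain ⟨τ', hτ', rfl⟩ := hτ
  have hn : (P.inertiaSubgroup ℚ).Normal :=
    MonoidHom.normal_ker (MulSemiringAction.toRingAut (P.decompositionSubgroup ℚ)
      (IsLocalRing.ResidueField P))
  have h1 := hn.conj_mem τ' hτ' ⟨σ, hσ⟩
  refine ⟨_, h1, ?_⟩
  rw [map_mul, map_mul, map_inv]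
  rfl

section Det

variable {T : Type} [CommRing T] [IsLocalRing T] {V : Type} [AddCommGroup V] [Module T V]

/-- An endomorphism of a free module of rank `2` which is congruent to `1` modulo the maximal ideal
(in coordinates) has determinant congruent to `1`. -/
theorem det_sub_one_mem (e : Module.Basis (Fin 2) T V) (f : Module.End T V)
    (h : ∀ i j, e.repr (f (e j) - e j) i ∈ maximalIdeal T) :
    LinearMap.det f - 1 ∈ maximalIdeal T := by
  classical
  rw [← LinearMap.det_toMatrix e f, Matrix.det_fin_two]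
  have hM : ∀ i j, LinearMap.toMatrix e e f i j =
      e.repr (f (e j) - e j) i + (if i = j then 1 else 0) := by
    intro i j
    rw [LinearMap.toMatrix_apply, map_sub, Finsupp.sub_apply, Module.Basis.repr_self,
      Finsupp.single_apply]
    by_cases hij : j = i
    · subst hij; simp
    · have : ¬ i = j := fun h => hij h.symm
      simp [hij, this]
  set a := e.repr (f (e 0) - e 0) 0 with ha
  set b := e.repr (f (e 1) - e 1) 0 with hb
  set c := e.repr (f (e 0) - e 0) 1 with hc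
  set d := e.repr (f (e 1) - e 1) 1 with hd
  have h00 : LinearMap.toMatrix e e f 0 0 = a + 1 := by rw [hM]; simp [ha]
  have h01 : LinearMap.toMatrix e e f 0 1 = b := by rw [hM]; simp [hb]
  have h10 : LinearMap.toMatrix e e f 1 0 = c := by rw [hM]; simp [hc]
  have h11 : LinearMap.toMatrix e e f 1 1 = d + 1 := by rw [hM]; simp [hd]
  rw [h00, h01, h10, h11]
  have hcalc : (a + 1) * (d + 1) - b * c - 1 = a * (d + 1) + d - b * c := by ring
  rw [hcalc]
  have ham : a ∈ maximalIdeal T := h 0 0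
  have hbm : b ∈ maximalIdeal T := h 0 1
  have hdm : d ∈ maximalIdeal T := h 1 1
  exact Ideal.sub_mem _ (Ideal.add_mem _ (Ideal.mul_mem_right _ _ ham) hdm)
    (Ideal.mul_mem_right _ _ hbm)

end Det

/-- **Alg-1 (core).**  The line `L = Σ_{σ ∈ I_P} (ρ σ − 1) V` is the ordinary line at `P`, provided
`det ρ` is residually nontrivial on `I_P` and every nonzero `t : T` is detected by a ring
homomorphism `χ : T → O` into a domain carrying a nonzero `I_P`-invariant `χ`-semilinear functional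
`V → O`. -/
theorem exists_line_of_separating_characters
    {T : Type} [CommRing T] [IsLocalRing T] (ρ : GaloisRepAdic T)
    (P : ValuationSubring Qb)
    (hdet : ∃ σ ∈ P.inertiaSubgroupIn ℚ, LinearMap.det (ρ.ρ σ) - 1 ∉ maximalIdeal T)
    (hchar : ∀ t : T, t ≠ 0 → ∃ (O : Type) (_ : CommRing O) (_ : NoZeroDivisors O) (χ : T →+* O),
      χ t ≠ 0 ∧ ∃ f : ρ.V →+ O, (∀ (s : T) (v : ρ.V), f (s • v) = χ s * f v) ∧ f ≠ 0 ∧
        ∀ σ ∈ P.inertiaSubgroupIn ℚ, ∀ v : ρ.V, f (ρ.ρ σ v) = f v) :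
    ∃ L : Submodule T ρ.V,
      (∃ b : Module.Basis (Fin 2) T ρ.V, L = T ∙ b 0) ∧
      (∀ σ ∈ P.decompositionSubgroup ℚ, ∀ v ∈ L, ρ.ρ σ v ∈ L) ∧
      (∀ σ ∈ P.inertiaSubgroupIn ℚ, ∀ v : ρ.V, ρ.ρ σ v - v ∈ L) := by
  classical
  obtain ⟨σ₀, hσ₀, hdet₀⟩ := hdet
  let e : Module.Basis (Fin 2) T ρ.V := Module.finBasisOfFinrankEq T ρ.V ρ.finrank_eq
  -- some coordinate of some `(ρ σ₀ − 1) e_j` is a unit
  obtain ⟨i, j, hij⟩ : ∃ i j, e.repr (ρ.ρ σ₀ (e j) - e j) i ∉ maximalIdeal T := by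
    by_contra hcon
    push Not at hcon
    exact hdet₀ (det_sub_one_mem e (ρ.ρ σ₀) hcon)
  set ℓ₀ : ρ.V := ρ.ρ σ₀ (e j) - e j with hℓ₀
  have hunit : IsUnit (e.repr ℓ₀ i) := by
    by_contra hnu
    exact hij ((mem_maximalIdeal _).mpr (mem_nonunits_iff.mpr hnu))
  -- the line
  let gens : Set ρ.V := {y | ∃ σ ∈ P.inertiaSubgroupIn ℚ, ∃ u : ρ.V, y = ρ.ρ σ u - u}
  let L : Submodule T ρ.V := Submodule.span T gens
  have hℓ₀L : ℓ₀ ∈ L := Submodule.subset_span ⟨σ₀, hσ₀, e j, rfl⟩
  -- the new basis `(ℓ₀, e i.rev)`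
  let v : Fin 2 → ρ.V := ![ℓ₀, e i.rev]
  have hdetv : IsUnit (e.det v) := by
    rw [Module.Basis.det_apply, Matrix.det_fin_two]
    simp only [Module.Basis.toMatrix_apply, v, Matrix.cons_val_zero, Matrix.cons_val_one]
    fin_cases i
    · have h1 : e.repr (e (Fin.rev (0 : Fin 2))) 1 = 1 := by
        rw [Module.Basis.repr_self]; simp [Fin.rev]
      have h2 : e.repr (e (Fin.rev (0 : Fin 2))) 0 = 0 := by
        rw [Module.Basis.repr_self]; simp [Fin.rev]
      simp only [Fin.zero_eta] at hunit ⊢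
      rw [h1, h2, mul_one, zero_mul, sub_zero]
      exact hunit
    · have h1 : e.repr (e (Fin.rev (1 : Fin 2))) 1 = 0 := by
        rw [Module.Basis.repr_self]; simp [Fin.rev]
      have h2 : e.repr (e (Fin.rev (1 : Fin 2))) 0 = 1 := by
        rw [Module.Basis.repr_self]; simp [Fin.rev]
      simp only [Fin.mk_one] at hunit ⊢
      rw [h1, h2, mul_zero, one_mul, zero_sub]
      exact hunit.neg
  obtain ⟨hli, hsp⟩ := (Module.Basis.is_basis_iff_det e).mpr hdetv
  let b : Module.Basis (Fin 2) T ρ.V := Module.Basis.mk hli hsp.ge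
  have hb0 : b 0 = ℓ₀ := by
    rw [Module.Basis.mk_apply]; rfl
  have hdecomp : ∀ y : ρ.V, y = b.repr y 0 • b 0 + b.repr y 1 • b 1 := by
    intro y
    conv_lhs => rw [← b.sum_repr y, Fin.sum_univ_two]
  -- the second coordinate vanishes on the generators
  have hgen : ∀ y ∈ gens, b.repr y 1 = 0 := by
    rintro y ⟨σ, hσ, u, rfl⟩
    by_contra hne
    obtain ⟨O, _, _, χ, hχ, f, hfsemi, hfne, hfinv⟩ := hchar _ hne
    apply hχ
    have hfy : f (ρ.ρ σ u - u) = 0 := by rw [map_sub, hfinv σ hσ u, sub_self]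
    have hfb0 : f (b 0) = 0 := by
      rw [hb0, hℓ₀, map_sub, hfinv σ₀ hσ₀ (e j), sub_self]
    have hfb1 : f (b 1) ≠ 0 := by
      intro h0
      apply hfne
      ext y
      rw [hdecomp y, map_add, hfsemi, hfsemi, hfb0, h0, mul_zero, mul_zero, add_zero,
        AddMonoidHom.zero_apply]
    have hexp := hdecomp (ρ.ρ σ u - u)
    have : f (ρ.ρ σ u - u) = χ (b.repr (ρ.ρ σ u - u) 1) * f (b 1) := by
      conv_lhs => rw [hexp]
      rw [map_add, hfsemi, hfsemi, hfb0, mul_zero, zero_add]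
    rw [hfy] at this
    rcases mul_eq_zero.mp this.symm with h | h
    · exact h
    · exact absurd h hfb1
  have hLker : ∀ y ∈ L, b.repr y 1 = 0 := by
    intro y hy
    have hle : L ≤ LinearMap.ker (b.coord 1) :=
      Submodule.span_le.mpr fun z hz => LinearMap.mem_ker.mpr (by
        rw [Module.Basis.coord_apply]; exact hgen z hz)
    have := LinearMap.mem_ker.mp (hle hy)
    rwa [Module.Basis.coord_apply] at this
  refine ⟨L, ⟨b, ?_⟩, ?_, ?_⟩
  · -- `L = T ∙ b 0`
    apply le_antisymm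
    · intro y hy
      rw [Submodule.mem_span_singleton]
      refine ⟨b.repr y 0, ?_⟩
      conv_rhs => rw [hdecomp y, hLker y hy, zero_smul, add_zero]
    · rw [Submodule.span_singleton_le_iff_mem, hb0]
      exact hℓ₀L
  · -- stability under the decomposition group
    intro σ hσ y hy
    refine Submodule.span_induction (p := fun z _ => ρ.ρ σ z ∈ L) ?_ ?_ ?_ ?_ hy
    · rintro z ⟨τ, hτ, u, rfl⟩
      refine Submodule.subset_span ⟨σ * τ * σ⁻¹,
        conj_mem_inertiaSubgroupIn_of_mem_decomp P hσ hτ, ρ.ρ σ u, ?_⟩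
      have h1 : ρ.ρ (σ * τ * σ⁻¹) (ρ.ρ σ u) = ρ.ρ σ (ρ.ρ τ u) := by
        rw [← Module.End.mul_apply, ← map_mul, ← Module.End.mul_apply, ← map_mul]
        congr 2
        group
      rw [h1, map_sub]
    · rw [map_zero]; exact L.zero_mem
    · intro x z _ _ hx hz
      rw [map_add]; exact L.add_mem hx hz
    · intro t x _ hx
      rw [map_smul]; exact L.smul_mem t hx
  · intro σ hσ u
    exact Submodule.subset_span ⟨σ, hσ, u, rfl⟩

/-- **Alg-1 (core), family version.**  Jointly injective ring homomorphisms `ψ k : T → O k` into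
domains, each with a nonzero `I_P`-invariant `ψ k`-semilinear functional. -/
theorem exists_line_of_characters
    {T : Type} [CommRing T] [IsLocalRing T] (ρ : GaloisRepAdic T)
    (P : ValuationSubring Qb)
    (hdet : ∃ σ ∈ P.inertiaSubgroupIn ℚ, LinearMap.det (ρ.ρ σ) - 1 ∉ maximalIdeal T)
    {κ : Type} {O : κ → Type} [∀ k, CommRing (O k)] [∀ k, NoZeroDivisors (O k)]
    (ψ : ∀ k, T →+* O k) (hψ : ∀ t : T, (∀ k, ψ k t = 0) → t = 0)
    (hchar : ∀ k, ∃ f : ρ.V →+ O k, (∀ (t : T) (v : ρ.V), f (t • v) = ψ k t * f v) ∧ f ≠ 0 ∧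
      ∀ σ ∈ P.inertiaSubgroupIn ℚ, ∀ v : ρ.V, f (ρ.ρ σ v) = f v) :
    ∃ L : Submodule T ρ.V,
      (∃ b : Module.Basis (Fin 2) T ρ.V, L = T ∙ b 0) ∧
      (∀ σ ∈ P.decompositionSubgroup ℚ, ∀ v ∈ L, ρ.ρ σ v ∈ L) ∧
      (∀ σ ∈ P.inertiaSubgroupIn ℚ, ∀ v : ρ.V, ρ.ρ σ v - v ∈ L) := by
  refine exists_line_of_separating_characters ρ P hdet fun t ht => ?_
  obtain ⟨k, hk⟩ : ∃ k, ψ k t ≠ 0 := by
    by_contra hcon
    push Not at hcon
    exact ht (hψ t hcon)
  exact ⟨O k, inferInstance, inferInstance, ψ k, hk, hchar k⟩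

end Fermat.Agent.S33lib.TLevel
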