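/-
S33lib / TLevel / Det  (helper5), block Alg-1 of project LSp (S33).

**`det ρ` is residually nontrivial on the inertia group at an odd prime `p`.**

For an adic Galois representation `ρ` over a complete local ring `T` of residue characteristic `p`,
whose Frobenius elements outside a finite set have characteristic polynomial `X² − t X + ℓ`, we have
`det ρ = χ_p` (`S35lib.Gal.det_eq_chiAdic`); for `p` odd the inertia group at any place `P | p` moves
`ζ_p` (`S56lib.Tame.exists_inertia_moves`), hence contains `σ` with `det ρ(σ) ≢ 1 mod 𝔪_T`.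
-/
import Fermat.Agent.S35lib.Gal.DetCyclo
import Fermat.Agent.S56lib.Tame.CycloInertia
import Fermat.Prelude.Def_CuspForm_HeckeGaloisRepDatum

set_option autoImplicit false
set_option linter.unusedSectionVars false
set_option linter.style.haveILetI false

noncomputable section

namespace Fermat.Agent.S33lib.TLevel

open Polynomial IsLocalRing Fermat.Agent.S29lib.S30

/-- `ℚ̄` -/
local notation "Qb" => AlgebraicClosure ℚ
/-- `G_ℚ` -/
local notation "GQ" => (AlgebraicClosure ℚ ≃ₐ[ℚ] AlgebraicClosure ℚ)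

/-- In a local ring of residue characteristic `p`, an integer lying in the maximal ideal is
divisible by `p`. -/
theorem dvd_of_intCast_mem_maximalIdeal {T : Type} [CommRing T] [IsLocalRing T] {p : ℕ}
    (hp : p.Prime) (hpT : (p : T) ∈ maximalIdeal T) {m : ℤ} (hm : (m : T) ∈ maximalIdeal T) :
    (p : ℤ) ∣ m := by
  by_contra hndvd
  have hcop : IsCoprime (p : ℤ) m :=
    (Prime.coprime_iff_not_dvd (Nat.prime_iff_prime_int.mp hp)).mpr hndvd
  obtain ⟨u, v, huv⟩ := hcop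
  have h1 : ((u * (p : ℤ) + v * m : ℤ) : T) ∈ maximalIdeal T := by
    push_cast
    exact Ideal.add_mem _ (Ideal.mul_mem_left _ _ hpT) (Ideal.mul_mem_left _ _ hm)
  rw [huv, Int.cast_one] at h1
  exact (Ideal.ne_top_iff_one _).mp (maximalIdeal.isMaximal T).ne_top h1

variable {T : Type} [CommRing T] [IsLocalRing T] [IsAdicComplete (maximalIdeal T) T]

/-- **`det ρ ≢ 1` somewhere on inertia at `p`** (`p` odd, `det ρ = χ_p`). -/
theorem exists_inertia_det_sub_one_notMem (p : ℕ) [hpf : Fact p.Prime] (hp2 : p ≠ 2)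
    (hpT : (p : T) ∈ maximalIdeal T) (ρ : GaloisRepAdic T) (S₀ : Finset ℕ)
    (hchar : ∀ ℓ : ℕ, ℓ.Prime → ℓ ∉ S₀ → ∀ A : ValuationSubring Qb, A.LiesOverPrime ℓ →
      ∀ φ : GQ, A.IsFrobeniusAt φ ℓ →
        ∃ t : T, LinearMap.charpoly (ρ.ρ φ) = X ^ 2 - C t * X + C (ℓ : T))
    (P : ValuationSubring Qb) (hP : P.LiesOverPrime p) :
    ∃ σ ∈ P.inertiaSubgroupIn ℚ, LinearMap.det (ρ.ρ σ) - 1 ∉ maximalIdeal T := by
  have hp : p.Prime := hpf.out
  obtain ⟨σ, hσ, ζ, hζ, hne⟩ := Fermat.Agent.S56lib.Tame.exists_inertia_moves p hp2 P hP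
  refine ⟨σ, hσ, fun hmem => hne ?_⟩
  -- the exponent of `σ` on `μ_p`
  set x : ℤ_[p] := ((chiZp p σ : ℤ_[p]ˣ) : ℤ_[p]) with hx
  set a : ℕ := (PadicInt.toZModPow 1 x).val with ha
  have hζp : ζ ^ p ^ 1 = 1 := by rw [pow_one]; exact hζ.pow_eq_one
  have hact : σ ζ = ζ ^ a := chiZp_spec p σ hζp
  -- `det ρ σ ≡ a`
  haveI : NeZero (p ^ 1) := ⟨pow_ne_zero 1 hp.ne_zero⟩
  have hcast : PadicInt.toZModPow 1 x = ((a : ℤ) : ZMod (p ^ 1)) := by
    rw [ha, Int.cast_natCast, ZMod.natCast_zmod_val]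
  have h1 : padicToRing p (maximalIdeal T) hpT x - ((a : ℤ) : T) ∈ maximalIdeal T ^ 1 :=
    padicToRing_sub_intCast_mem p (maximalIdeal T) hpT hcast
  rw [pow_one] at h1
  have hdet : LinearMap.det (ρ.ρ σ) = padicToRing p (maximalIdeal T) hpT x := by
    rw [Fermat.Agent.S35lib.Gal.det_eq_chiAdic p hpT ρ S₀ hchar σ, coe_chiAdic]
  rw [hdet] at hmem
  have h2 : (((a : ℤ) - 1 : ℤ) : T) ∈ maximalIdeal T := by
    have := Ideal.sub_mem _ hmem h1
    have hcalc : padicToRing p (maximalIdeal T) hpT x - 1 -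
        (padicToRing p (maximalIdeal T) hpT x - ((a : ℤ) : T)) = (((a : ℤ) - 1 : ℤ) : T) := by
      push_cast; ring
    rwa [hcalc] at this
  obtain ⟨c, hc⟩ := dvd_of_intCast_mem_maximalIdeal hp hpT h2
  -- `ζ ^ a = ζ`
  rw [hact]
  have hζu : IsUnit ζ := IsUnit.of_pow_eq_one hζ.pow_eq_one hp.ne_zero
  obtain ⟨u, rfl⟩ := hζu
  have hup : u ^ (p : ℤ) = 1 := by
    rw [zpow_natCast]
    exact Units.ext (by simpa using hζ.pow_eq_one)
  have hz : u ^ ((a : ℤ)) = u := by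
    have ha' : (a : ℤ) = 1 + (p : ℤ) * c := by linarith
    rw [ha', zpow_add, zpow_one, zpow_mul, hup, one_zpow, mul_one]
  have := congrArg (fun w : Qbˣ => (w : Qb)) hz
  simpa using this

/-- The same for the representation of a Hecke–Galois datum of level `N`. -/
theorem exists_inertia_det_sub_one_notMem_datum
    {p : ℕ} {N : ℕ} [NeZero N] {S : Finset ℕ}
    {𝒪 : Type} [CommRing 𝒪] [IsDomain 𝒪] [IsDiscreteValuationRing 𝒪]
    [IsAdicComplete (IsLocalRing.maximalIdeal 𝒪) 𝒪]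
    {θ : CuspForm.heckeAlgebra N 2 (↑S : Set ℕ) →+* IsLocalRing.ResidueField 𝒪}
    [IsNoetherianRing T] [Algebra 𝒪 T] [IsLocalHom (algebraMap 𝒪 T)]
    [Module.Finite 𝒪 T] [Module.Free 𝒪 T]
    (hp : p.Prime) (hp2 : p ≠ 2) (hp𝒪 : (p : 𝒪) ∈ IsLocalRing.maximalIdeal 𝒪)
    (H : CuspForm.HeckeGaloisRepDatum N (↑S : Set ℕ) 𝒪 θ T)
    (P : ValuationSubring Qb) (hP : P.LiesOverPrime p) :
    ∃ σ ∈ P.inertiaSubgroupIn ℚ, LinearMap.det (H.ρ.ρ σ) - 1 ∉ maximalIdeal T := by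
  haveI : Fact p.Prime := ⟨hp⟩
  have hpT : (p : T) ∈ maximalIdeal T := by
    have h1 : (p : T) = algebraMap 𝒪 T (p : 𝒪) := (map_natCast _ p).symm
    rw [h1]
    exact map_nonunit (algebraMap 𝒪 T) _ hp𝒪
  refine exists_inertia_det_sub_one_notMem p hp2 hpT H.ρ (S ∪ N.primeFactors) ?_ P hP
  intro ℓ hℓ hℓS A hA φ hφ
  have hℓS' : ℓ ∉ (↑S : Set ℕ) := fun h => hℓS (Finset.mem_union_left _ (Finset.mem_coe.mp h))
  have hℓN : ¬ ℓ ∣ N := fun h =>
    hℓS (Finset.mem_union_right _ (Nat.mem_primeFactors.mpr ⟨hℓ, h, NeZero.ne N⟩))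
  exact ⟨H.π (CuspForm.heckeAlgebra.T hℓ hℓN hℓS'), H.charpoly_frob ℓ hℓ hℓN hℓS' A hA φ hφ⟩

end Fermat.Agent.S33lib.TLevel
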