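/-
S33lib / TLevel / Stmt  (helper5), block Alg-1 of project LSp (S33).

`tLevelStmt : TLevelStmt` — the interface form (`S33lib/Iface`) of `TLevel/Core` + `TLevel/Det`:
jointly injective characters `ψ k : T → O₁` with `CharStmt H.ρ P (ψ k)` give `OrdBody H.ρ P`.
(The hypotheses `p ∥ N`, `hres` and the finiteness of the family are not used at this level.)
-/
import Fermat.Agent.S33lib.Iface
import Fermat.Agent.S33lib.TLevel.Core
import Fermat.Agent.S33lib.TLevel.Det

set_option autoImplicit false
set_option linter.unusedSectionVars false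
set_option linter.unusedVariables false

noncomputable section

namespace Fermat.Agent.S33lib.TLevel

open IsLocalRing CuspForm Fermat.Agent.S33lib

/-- `ℚ̄` -/
local notation "Qb" => AlgebraicClosure ℚ

/-- **TLevel.** -/
theorem tLevelStmt : TLevelStmt := by
  intro p N _ S 𝒪 _ _ _ _ θ T _ _ _ _ _ _ _ _ _ _ hp hp2 hp𝒪 _hN _hNS H _hres P hP κ _ O₁ _ _ ψ hψ
    hchar
  refine exists_line_of_separating_characters H.ρ P
    (exists_inertia_det_sub_one_notMem_datum hp hp2 hp𝒪 H P hP) fun t ht => ?_
  obtain ⟨k, hk⟩ : ∃ k, ψ k t ≠ 0 := by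
    by_contra hcon
    push Not at hcon
    exact ht (hψ t hcon)
  obtain ⟨O', j1, j2, ι, hι, f, hfsemi, ⟨v, hv⟩, hfinv⟩ := hchar k
  refine ⟨O', j1, inferInstance, ι.comp (ψ k), ?_, f, ?_, ?_, hfinv⟩
  · intro h0
    apply hk
    apply hι
    rw [map_zero]
    exact h0
  · intro s w
    exact hfsemi s w
  · intro h0
    apply hv
    rw [h0, AddMonoidHom.zero_apply]

end Fermat.Agent.S33lib.TLevel
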