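/-
S33lib / TLevel / Main  (helper5), block Alg-1 of project LSp (S33).

**`H.ρ.IsOrdinaryAt p` from character-level inertia-coinvariants.**

For a Hecke–Galois datum `H` of level `N` with values in `T` (`p` odd, residue characteristic `p`),
`H.ρ.IsOrdinaryAt p` follows as soon as, for every place `P | p` of `ℚ̄` and every `𝒪`-algebra
character `ψ : T → O₁` into a complete DVR `O₁` finite over `𝒪` (as produced by
`S32lib.exists_characters_dvr`), there is a NONZERO additive `f : V → O₂` into a domain `O₂ ⊇ O₁`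
which is `ψ`-semilinear and invariant under the inertia group `I_P`  (`CharFunctional`).
No hypothesis on the residual representation is needed at this level (it is used to PRODUCE the
functionals).  Ingredients: `TLevel.Core` (the line `Σ_{σ ∈ I}(ρσ − 1)V`), `TLevel.Det`
(`det ρ = χ_p` is residually nontrivial on `I_P`), `S32lib.exists_characters_dvr`.
-/
import Fermat.Agent.S33lib.TLevel.Core
import Fermat.Agent.S33lib.TLevel.Det
import Fermat.Agent.S32lib.Chars.Main
import Fermat.Agent.S31lib.PET.Main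
import Fermat.Agent.S22

set_option autoImplicit false
set_option linter.unusedSectionVars false
set_option linter.style.haveILetI false

noncomputable section

namespace Fermat.Agent.S33lib.TLevel

open IsLocalRing CuspForm

/-- `ℚ̄` -/
local notation "Qb" => AlgebraicClosure ℚ
/-- `G_ℚ` -/
local notation "GQ" => (AlgebraicClosure ℚ ≃ₐ[ℚ] AlgebraicClosure ℚ)

/-- **The character-level statement**: for the ring homomorphism `ψ : T → O₁` there is a nonzero
additive functional on `ρ.V`, with values in a domain `O₂` containing `O₁`, which is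
`ψ`-semilinear and invariant under the inertia group of `P`. -/
def CharFunctional {T : Type} [CommRing T] [IsLocalRing T] (ρ : GaloisRepAdic T)
    (P : ValuationSubring Qb) {O₁ : Type} [CommRing O₁] (ψ : T →+* O₁) : Prop :=
  ∃ (O₂ : Type) (_ : CommRing O₂) (_ : NoZeroDivisors O₂) (ι : O₁ →+* O₂),
    Function.Injective ι ∧
    ∃ f : ρ.V →+ O₂, (∀ (t : T) (v : ρ.V), f (t • v) = ι (ψ t) * f v) ∧ f ≠ 0 ∧
      ∀ σ ∈ P.inertiaSubgroupIn ℚ, ∀ v : ρ.V, f (ρ.ρ σ v) = f v

variable {p : ℕ} {N : ℕ} [NeZero N] {S : Finset ℕ}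
  {𝒪 : Type} [CommRing 𝒪] [IsDomain 𝒪] [IsDiscreteValuationRing 𝒪]
  [IsAdicComplete (IsLocalRing.maximalIdeal 𝒪) 𝒪]
  {θ : CuspForm.heckeAlgebra N 2 (↑S : Set ℕ) →+* IsLocalRing.ResidueField 𝒪}
  {T : Type} [CommRing T] [IsLocalRing T] [IsNoetherianRing T]
  [IsAdicComplete (IsLocalRing.maximalIdeal T) T] [Algebra 𝒪 T] [IsLocalHom (algebraMap 𝒪 T)]
  [Module.Finite 𝒪 T] [Module.Free 𝒪 T]

/-- **Alg-1.**  `IsOrdinaryAt p` for the representation of a Hecke–Galois datum, from the
character-level statement `CharFunctional` for all `𝒪`-characters of `T` into complete DVRs finite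
over `𝒪`. -/
theorem isOrdinaryAt_of_charFunctional
    [Finite (IsLocalRing.ResidueField 𝒪)] [CharZero 𝒪]
    (hp : p.Prime) (hp2 : p ≠ 2) (hp𝒪 : (p : 𝒪) ∈ IsLocalRing.maximalIdeal 𝒪)
    (hNS : ∀ q : ℕ, q.Prime → q ∣ N → q ∈ S)
    (H : CuspForm.HeckeGaloisRepDatum N (↑S : Set ℕ) 𝒪 θ T)
    (hchar : ∀ (O₁ : Type) [CommRing O₁] [IsDomain O₁] [IsDiscreteValuationRing O₁]
      [IsAdicComplete (maximalIdeal O₁) O₁] [Finite (ResidueField O₁)] [CharZero O₁]
      [Algebra 𝒪 O₁] [Module.Finite 𝒪 O₁] [IsLocalHom (algebraMap 𝒪 O₁)],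
      Function.Injective (algebraMap 𝒪 O₁) → ∀ ψ : T →ₐ[𝒪] O₁,
        ∀ P : ValuationSubring Qb, P.LiesOverPrime p →
          CharFunctional H.ρ P (ψ : T →+* O₁)) :
    H.ρ.IsOrdinaryAt p := by
  classical
  -- enough characters
  haveI : IsReduced ↥(CuspForm.heckeAlgebra N 2 (↑S : Set ℕ)) :=
    Fermat.Agent.S31lib.PET.isReduced_heckeAlgebra'
      (fun q hq hqN => Finset.mem_coe.mpr (hNS q hq hqN))
  haveI : Module.Finite ℤ ↥(CuspForm.heckeAlgebra N 2 (↑S : Set ℕ)) :=
    Fermat.Agent.S22.result N 2 (↑S : Set ℕ)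
  obtain ⟨κ, hκ, O₁, i1, i2, i3, i4, i5, i6, i7, i8, i9, hinj, ψ, hψ⟩ :=
    Fermat.Agent.S32lib.exists_characters_dvr H.π H.adjoin_range_π
  intro P hP
  refine exists_line_of_separating_characters H.ρ P
    (exists_inertia_det_sub_one_notMem_datum hp hp2 hp𝒪 H P hP) fun t ht => ?_
  obtain ⟨k, hk⟩ : ∃ k, ψ k t ≠ 0 := by
    by_contra hcon
    push Not at hcon
    exact ht (hψ t hcon)
  obtain ⟨O₂, j1, j2, ι, hι, f, hfsemi, hfne, hfinv⟩ := hchar O₁ hinj (ψ k) P hP
  refine ⟨O₂, j1, j2, ι.comp (ψ k : T →+* O₁), ?_, f, ?_, hfne, hfinv⟩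
  · intro h0
    apply hk
    apply hι
    rw [map_zero]
    exact h0
  · intro s v
    exact hfsemi s v

end Fermat.Agent.S33lib.TLevel
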